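import Mathlib.NumberTheory.ModularForms.Discriminant
import Mathlib.NumberTheory.ModularForms.EisensteinSeries.QExpansion
import Mathlib.NumberTheory.Modular
import Mathlib.Analysis.Complex.OpenMapping

/-!
# The `j`-function is surjective

`jInv τ = E₄ τ ^ 3 / Δ τ` is holomorphic on `ℍ`, invariant under `SL(2, ℤ)`, tends to `∞` at `i∞`
and takes every complex value.
-/

set_option autoImplicit false

open UpperHalfPlane ModularForm ModularGroup Filter Topology
open scoped MatrixGroups ModularForm Manifold Modular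

namespace Fermat.Agent.LevelOne_helper29

/-- The `j`-function `E₄ ^ 3 / Δ = q⁻¹ + 744 + ⋯`. -/
noncomputable def jInv (τ : ℍ) : ℂ := E₄ τ ^ 3 / ModularForm.discriminant τ

theorem jInv_def (τ : ℍ) : jInv τ = E₄ τ ^ 3 / ModularForm.discriminant τ := rfl

theorem E4_smul (γ : SL(2, ℤ)) (τ : ℍ) : E₄ (γ • τ) = denom γ τ ^ (4 : ℤ) * E₄ τ := by
  have h : ((γ : GL (Fin 2) ℝ)) ∈ (𝒮ℒ : Subgroup (GL (Fin 2) ℝ)) := ⟨γ, rfl⟩
  exact SlashInvariantForm.slash_action_eqn'' E₄ h τ

theorem discriminant_smul (γ : SL(2, ℤ)) (τ : ℍ) :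
    ModularForm.discriminant (γ • τ) = denom γ τ ^ (12 : ℤ) * ModularForm.discriminant τ := by
  have h : ((γ : GL (Fin 2) ℝ)) ∈ (𝒮ℒ : Subgroup (GL (Fin 2) ℝ)) := ⟨γ, rfl⟩
  exact SlashInvariantForm.slash_action_eqn'' CuspForm.discriminant h τ

theorem jInv_smul (γ : SL(2, ℤ)) (τ : ℍ) : jInv (γ • τ) = jInv τ := by
  have hd : denom γ τ ≠ 0 := denom_ne_zero γ τ
  have hΔ : ModularForm.discriminant τ ≠ 0 := discriminant_ne_zero τ
  rw [jInv, jInv, E4_smul, discriminant_smul, div_eq_div_iff (mul_ne_zero (zpow_ne_zero _ hd) hΔ) hΔ]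
  have h4 : (denom γ τ ^ (4 : ℤ)) ^ 3 = denom γ τ ^ (12 : ℤ) := by
    rw [← zpow_natCast, ← zpow_mul]; norm_num
  rw [mul_pow, h4]
  ring

theorem mdifferentiable_jInv : MDiff jInv := by
  have h1 : MDiff (fun τ : ℍ => E₄ τ ^ 3) := (ModularFormClass.holo E₄).pow 3
  have h2 : MDiff (fun τ : ℍ => ModularForm.discriminant τ) :=
    ModularFormClass.holo CuspForm.discriminant
  intro τ
  exact (h1 τ).div (h2 τ) (discriminant_ne_zero τ)

theorem continuous_jInv : Continuous jInv := mdifferentiable_jInv.continuous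

theorem tendsto_E4_atImInfty : Tendsto (fun τ : ℍ => E₄ τ) atImInfty (𝓝 1) := by
  have han : AnalyticAt ℂ (cuspFunction 1 E₄) 0 :=
    ModularFormClass.analyticAt_cuspFunction_zero E₄ one_pos one_mem_strictPeriods_SL
  have hval : cuspFunction 1 E₄ 0 = 1 := by
    have h0 := EisensteinSeries.E_qExpansion_coeff_zero (k := 4) (by norm_num) ⟨2, rfl⟩
    rw [qExpansion_coeff] at h0
    simpa using h0
  have hcomp : (fun τ : ℍ => E₄ τ) =
      (cuspFunction 1 E₄) ∘ (fun τ : ℍ => Function.Periodic.qParam 1 (τ : ℂ)) := by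
    funext τ
    exact (SlashInvariantFormClass.eq_cuspFunction E₄ τ one_mem_strictPeriods_SL one_ne_zero).symm
  rw [hcomp, ← hval]
  exact han.continuousAt.tendsto.comp (qParam_tendsto_atImInfty one_pos)

theorem tendsto_norm_jInv_atImInfty : Tendsto (fun τ : ℍ => ‖jInv τ‖) atImInfty atTop := by
  have h1 : Tendsto (fun τ : ℍ => ‖E₄ τ ^ 3‖) atImInfty (𝓝 1) := by
    have := (tendsto_E4_atImInfty.pow 3).norm
    simpa using this
  have h2 : Tendsto (fun τ : ℍ => ‖ModularForm.discriminant τ‖) atImInfty (𝓝[>] 0) := by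
    rw [tendsto_nhdsWithin_iff]
    refine ⟨?_, Eventually.of_forall fun τ => norm_pos_iff.mpr (discriminant_ne_zero τ)⟩
    have := (discriminant_isZeroAtImInfty : Tendsto _ _ _).norm
    simpa using this
  have h3 : Tendsto (fun τ : ℍ => ‖ModularForm.discriminant τ‖⁻¹) atImInfty atTop :=
    tendsto_inv_nhdsGT_zero.comp h2
  have h4 := h1.pos_mul_atTop one_pos h3
  refine h4.congr fun τ => ?_
  rw [jInv, norm_div, div_eq_mul_inv]

theorem isOpen_range_jInv : IsOpen (Set.range jInv) := by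
  have hdiff : DifferentiableOn ℂ (jInv ∘ ofComplex) upperHalfPlaneSet :=
    UpperHalfPlane.mdifferentiable_iff.mp mdifferentiable_jInv
  have han : AnalyticOnNhd ℂ (jInv ∘ ofComplex) upperHalfPlaneSet :=
    hdiff.analyticOnNhd isOpen_upperHalfPlaneSet
  have hconn : IsPreconnected upperHalfPlaneSet :=
    (Complex.isConnected_of_upperHalfPlane subset_rfl (by grind)).isPreconnected
  have himage : (jInv ∘ ofComplex) '' upperHalfPlaneSet = Set.range jInv := by
    ext c
    constructor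
    · rintro ⟨z, _, rfl⟩
      exact ⟨ofComplex z, rfl⟩
    · rintro ⟨τ, rfl⟩
      exact ⟨(τ : ℂ), τ.im_pos, by simp⟩
  rcases han.is_constant_or_isOpen hconn with ⟨w, hw⟩ | hopen
  · exfalso
    have hconst : ∀ τ : ℍ, jInv τ = w := fun τ => by
      have := hw (τ : ℂ) τ.im_pos
      simpa using this
    have h1 : Tendsto (fun τ : ℍ => ‖jInv τ‖) atImInfty (𝓝 ‖w‖) := by
      simp only [hconst]
      exact tendsto_const_nhds
    exact not_tendsto_nhds_of_tendsto_atTop tendsto_norm_jInv_atImInfty _ h1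
  · rw [← himage]
    exact hopen _ subset_rfl isOpen_upperHalfPlaneSet

theorem isClosed_range_jInv : IsClosed (Set.range jInv) := by
  rw [← closure_subset_iff_isClosed]
  intro c hc
  -- beyond height `A`, `‖jInv‖ > ‖c‖ + 1`
  obtain ⟨A, hA⟩ : ∃ A : ℝ, ∀ τ : ℍ, A ≤ τ.im → ‖c‖ + 1 < ‖jInv τ‖ := by
    have := tendsto_norm_jInv_atImInfty.eventually (eventually_gt_atTop (‖c‖ + 1))
    exact (atImInfty_mem _).mp this
  have hK : IsCompact (jInv '' truncatedFundamentalDomain A) :=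
    (isCompact_truncatedFundamentalDomain A).image continuous_jInv
  have hmem : c ∈ closure (jInv '' truncatedFundamentalDomain A) := by
    rw [Metric.mem_closure_iff]
    intro ε hε
    rw [Metric.mem_closure_iff] at hc
    obtain ⟨_, ⟨τ, rfl⟩, hτ⟩ := hc (min ε 1) (lt_min hε one_pos)
    obtain ⟨γ, hγ⟩ := exists_smul_mem_fd τ
    refine ⟨jInv τ, ⟨γ • τ, ⟨hγ, ?_⟩, jInv_smul γ τ⟩, hτ.trans_le (min_le_left _ _)⟩
    by_contra hcon
    rw [not_le] at hcon
    have h1 := hA (γ • τ) hcon.le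
    rw [jInv_smul] at h1
    have h2 : ‖jInv τ‖ ≤ ‖c‖ + dist c (jInv τ) := by
      rw [dist_comm, dist_eq_norm]
      calc ‖jInv τ‖ = ‖c + (jInv τ - c)‖ := by ring_nf
        _ ≤ ‖c‖ + ‖jInv τ - c‖ := norm_add_le _ _
    have h3 : dist c (jInv τ) < 1 := hτ.trans_le (min_le_right _ _)
    linarith
  rw [hK.isClosed.closure_eq] at hmem
  obtain ⟨τ, _, rfl⟩ := hmem
  exact ⟨τ, rfl⟩

/-- The `j`-function takes every complex value. -/
theorem jInv_surjective : Function.Surjective jInv := by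
  have hclopen : IsClopen (Set.range jInv) := ⟨isClosed_range_jInv, isOpen_range_jInv⟩
  have huniv : Set.range jInv = Set.univ :=
    hclopen.eq_univ ⟨jInv UpperHalfPlane.I, ⟨_, rfl⟩⟩
  exact Set.range_eq_univ.mp huniv

/-- Surjectivity of `j`, phrased without division. -/
theorem exists_E4_cube_eq_mul_discriminant (c : ℂ) :
    ∃ τ : ℍ, E₄ τ ^ 3 = c * ModularForm.discriminant τ := by
  obtain ⟨τ, hτ⟩ := jInv_surjective c
  refine ⟨τ, ?_⟩
  rw [← hτ, jInv, div_mul_cancel₀ _ (discriminant_ne_zero τ)]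

end Fermat.Agent.LevelOne_helper29
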