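import Mathlib.NumberTheory.ModularForms.Derivative
import Mathlib.NumberTheory.ModularForms.Discriminant
import Mathlib.NumberTheory.ModularForms.LevelOne.GradedRing
import Mathlib.NumberTheory.ModularForms.EisensteinSeries.QExpansion
import Fermat.Agent.S22_helper29.Antideriv
import Fermat.Agent.LevelOne_helper29.JSurj

set_option autoImplicit false

open UpperHalfPlane hiding I
open ModularForm Filter Topology Complex Real EisensteinSeries
open scoped MatrixGroups ModularForm Manifold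
open Derivative

namespace Fermat.Agent.LevelOne_helper29

/-- A holomorphic function on `ℍ` which is slash-invariant of weight `k` under `SL(2, ℤ)` and
bounded at `i∞` is a level-one modular form. -/
noncomputable def levelOneForm (k : ℤ) (f : ℍ → ℂ) (hf : MDiff f)
    (hinv : ∀ γ : SL(2, ℤ), f ∣[k] γ = f) (hbdd : IsBoundedAtImInfty f) : ModularForm 𝒮ℒ k where
  toFun := f
  slash_action_eq' := fun _ ⟨γ, hγ⟩ => hγ ▸ hinv γ
  holo' := hf
  bdd_at_cusps' {c} hc := by
    rw [Subgroup.IsArithmetic.isCusp_iff_isCusp_SL2Z] at hc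
    rw [OnePoint.isBoundedAt_iff_forall_SL2Z hc]
    intro γ _
    rw [hinv γ]
    exact hbdd

@[simp] theorem coe_levelOneForm (k : ℤ) (f : ℍ → ℂ) (hf : MDiff f)
    (hinv : ∀ γ : SL(2, ℤ), f ∣[k] γ = f) (hbdd : IsBoundedAtImInfty f) :
    (levelOneForm k f hf hinv hbdd : ℍ → ℂ) = f := rfl

/-- The normalised Eisenstein series tend to `1` at `i∞`. -/
theorem tendsto_E_atImInfty {k : ℕ} (hk : 3 ≤ k) (hk2 : Even k) :
    Tendsto (fun τ : ℍ => E hk τ) atImInfty (𝓝 1) := by
  have han : AnalyticAt ℂ (cuspFunction 1 (E hk)) 0 :=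
    ModularFormClass.analyticAt_cuspFunction_zero (E hk) one_pos one_mem_strictPeriods_SL
  have hval : cuspFunction 1 (E hk) 0 = 1 := by
    have h0 := EisensteinSeries.E_qExpansion_coeff_zero hk hk2
    rw [qExpansion_coeff] at h0
    simpa using h0
  have hcomp : (fun τ : ℍ => E hk τ) =
      (cuspFunction 1 (E hk)) ∘ (fun τ : ℍ => Function.Periodic.qParam 1 (τ : ℂ)) := by
    funext τ
    exact (SlashInvariantFormClass.eq_cuspFunction (E hk) τ one_mem_strictPeriods_SL
      one_ne_zero).symm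
  rw [hcomp, ← hval]
  exact han.continuousAt.tendsto.comp (qParam_tendsto_atImInfty one_pos)

theorem tendsto_E6_atImInfty : Tendsto (fun τ : ℍ => E₆ τ) atImInfty (𝓝 1) :=
  tendsto_E_atImInfty _ ⟨3, rfl⟩

/-- A holomorphic function given by a convergent `q`-expansion tends to its constant term. -/
theorem tendsto_of_hasSum_qParam {f : ℍ → ℂ} {c : ℕ → ℂ} (hf : MDiff f)
    (hsum : ∀ τ : ℍ, HasSum (fun m => c m • Function.Periodic.qParam 1 (τ : ℂ) ^ m) (f τ)) :
    Tendsto f atImInfty (𝓝 (c 0)) := by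
  have hbdd : IsBoundedAtImInfty f := isBoundedAtImInfty_of_hasSum_qExpansion one_pos hsum
  have hper : Function.Periodic (f ∘ ofComplex) (1 : ℝ) := by
    intro w
    by_cases hw : 0 < w.im
    · have hw' : 0 < (w + (1 : ℝ)).im := by simpa using hw
      simp only [Function.comp_apply, ofComplex_apply_of_im_pos hw, ofComplex_apply_of_im_pos hw']
      refine (hsum ⟨w + (1 : ℝ), hw'⟩).unique ?_
      have hq : Function.Periodic.qParam 1 (w + (1 : ℝ)) = Function.Periodic.qParam 1 w :=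
        Fermat.Agent.S22_helper29.qParam_add_period one_ne_zero w
      have := hsum ⟨w, hw⟩
      dsimp only at this ⊢
      rw [hq]
      exact this
    · have hw0 : w.im ≤ 0 := not_lt.mp hw
      have hw' : (w + (1 : ℝ)).im ≤ 0 := by simpa using hw0
      simp only [Function.comp_apply]
      rw [ofComplex_apply_eq_of_im_nonpos hw' hw0]
  have han : AnalyticAt ℂ (cuspFunction 1 f) 0 :=
    analyticAt_cuspFunction_zero one_pos hper hf hbdd
  have hval : cuspFunction 1 f 0 = c 0 := by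
    have H := (hasFPowerSeriesOnBall_cuspFunction one_pos han hsum).coeff_zero (fun _ => 0)
    rw [FormalMultilinearSeries.ofScalars_apply_zero] at H
    simpa using H.symm
  have hcomp : f = (cuspFunction 1 f) ∘ (fun τ : ℍ => Function.Periodic.qParam 1 (τ : ℂ)) := by
    funext τ
    exact (eq_cuspFunction τ one_ne_zero hper).symm
  rw [hcomp, ← hval]
  exact han.continuousAt.tendsto.comp (qParam_tendsto_atImInfty one_pos)

theorem tendsto_E2_atImInfty : Tendsto E2 atImInfty (𝓝 1) := by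
  have h := tendsto_of_hasSum_qParam (f := E2)
    (c := fun m : ℕ => (if m = 0 then 1 else -24 * ArithmeticFunction.sigma 1 m : ℂ))
    E2_mdifferentiable (fun τ => by
      simpa only [Function.Periodic.qParam, ofReal_one, div_one] using
        hasSum_qExpansion_E2 (z := τ))
  simpa using h


/-! ### The Serre derivative of a level-one modular form -/

theorem isBoundedAtImInfty_serreDerivative {k : ℤ} (f : ModularForm 𝒮ℒ k) :
    IsBoundedAtImInfty (serreDerivative k f) := by
  have hper : Function.Periodic ((f : ℍ → ℂ) ∘ ofComplex) (1 : ℝ) :=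
    SlashInvariantFormClass.periodic_comp_ofComplex f one_mem_strictPeriods_SL
  have h1 : IsBoundedAtImInfty (D f) :=
    (Fermat.Agent.S22_helper29.isZeroAtImInfty_D one_pos (ModularFormClass.holo f) hper
      (ModularFormClass.bdd_at_infty f)).boundedAtFilter
  have h2 : IsBoundedAtImInfty (fun τ : ℍ => (k : ℂ) * 12⁻¹ * E2 τ * f τ) := by
    have h3 : IsBoundedAtImInfty (E2 * (f : ℍ → ℂ)) :=
      isBoundedAtImInfty_E2.mul (ModularFormClass.bdd_at_infty f)
    have h4 := (const_boundedAtFilter atImInfty ((k : ℂ) * 12⁻¹)).mul h3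
    have e : (fun τ : ℍ => (k : ℂ) * 12⁻¹ * E2 τ * f τ) =
        Function.const ℍ ((k : ℂ) * 12⁻¹) * (E2 * (f : ℍ → ℂ)) := by
      funext τ
      simp [mul_assoc]
    rw [e]
    exact h4
  have h5 := h1.add h2.neg
  have e : serreDerivative (k : ℂ) (f : ℍ → ℂ) =
      D (f : ℍ → ℂ) + -fun τ : ℍ => (k : ℂ) * 12⁻¹ * E2 τ * f τ := by
    funext τ
    simp [sub_eq_add_neg]
  rw [e]
  exact h5

/-- The Serre derivative of a level-one modular form, as a modular form of weight `k + 2`. -/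
noncomputable def serreForm {k : ℤ} (f : ModularForm 𝒮ℒ k) : ModularForm 𝒮ℒ (k + 2) :=
  levelOneForm (k + 2) (serreDerivative k f)
    (serreDerivative_mdifferentiable _ (ModularFormClass.holo f))
    (fun γ => serreDerivative_slash_invariant (ModularFormClass.holo f)
      (SlashInvariantForm.slash_action_eqn f _ ⟨γ, rfl⟩))
    (isBoundedAtImInfty_serreDerivative f)

theorem serreForm_apply {k : ℤ} (f : ModularForm 𝒮ℒ k) (τ : ℍ) :
    serreForm f τ = D f τ - (k : ℂ) * 12⁻¹ * E2 τ * f τ := rfl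

/-- If `f → a` at `i∞` then its Serre derivative tends to `-(k / 12) a`. -/
theorem tendsto_serreForm {k : ℤ} (f : ModularForm 𝒮ℒ k) {a : ℂ}
    (ha : Tendsto (fun τ : ℍ => f τ) atImInfty (𝓝 a)) :
    Tendsto (fun τ : ℍ => serreForm f τ) atImInfty (𝓝 (-((k : ℂ) * 12⁻¹ * a))) := by
  have hper : Function.Periodic ((f : ℍ → ℂ) ∘ ofComplex) (1 : ℝ) :=
    SlashInvariantFormClass.periodic_comp_ofComplex f one_mem_strictPeriods_SL
  have h1 : Tendsto (D f) atImInfty (𝓝 0) :=
    Fermat.Agent.S22_helper29.isZeroAtImInfty_D one_pos (ModularFormClass.holo f) hper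
      (ModularFormClass.bdd_at_infty f)
  have h2 : Tendsto (fun τ : ℍ => (k : ℂ) * 12⁻¹ * E2 τ * f τ) atImInfty
      (𝓝 ((k : ℂ) * 12⁻¹ * 1 * a)) :=
    ((tendsto_E2_atImInfty.const_mul ((k : ℂ) * 12⁻¹))).mul ha
  have h3 := h1.sub h2
  simp only [mul_one, zero_sub] at h3
  exact h3


/-! ### Ramanujan's identities -/

/-- **Ramanujan**: `D E₄ = (E₂ E₄ - E₆) / 3`, in Serre-derivative form. -/
theorem serreForm_E4 (τ : ℍ) : serreForm E₄ τ = -(1 / 3 : ℂ) * E₆ τ := by
  obtain ⟨c, hc⟩ : ∃ c : ℂ, c • E₆ = (serreForm E₄ : ModularForm 𝒮ℒ 6) :=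
    (finrank_eq_one_iff_of_nonzero' E₆ (E_ne_zero _ ⟨3, rfl⟩)).mp
      (Module.rank_eq_one_iff_finrank_eq_one.mp levelOne_weight_six_rank_one) _
  have hfun : ∀ τ : ℍ, serreForm E₄ τ = c * E₆ τ := fun τ => by
    have := congrArg (fun F : ModularForm 𝒮ℒ 6 => F τ) hc
    simpa using this.symm
  have h1 : Tendsto (fun τ : ℍ => serreForm E₄ τ) atImInfty (𝓝 (c * 1)) := by
    simp only [hfun]
    exact tendsto_E6_atImInfty.const_mul c
  have h2 := tendsto_serreForm E₄ tendsto_E4_atImInfty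
  have h3 := tendsto_nhds_unique h1 h2
  rw [hfun τ, ← mul_one c, h3]
  push_cast
  ring


theorem levelOne_weight_eight_rank_one : Module.rank ℂ (ModularForm 𝒮ℒ 8) = 1 := by
  have h := dimension_level_one 8 ⟨4, rfl⟩
  have h2 : ¬ (8 ≡ 2 [MOD 12]) := by decide
  rw [if_neg h2] at h
  simpa using h

/-- `E₄ ^ 2` as a modular form of weight `8`. -/
noncomputable def E4sq : ModularForm 𝒮ℒ 8 := E₄.mul E₄

theorem E4sq_apply (τ : ℍ) : E4sq τ = E₄ τ * E₄ τ := rfl

theorem E4sq_ne_zero : E4sq ≠ 0 := by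
  intro h
  have hne : Tendsto (fun τ : ℍ => E₄ τ * E₄ τ) atImInfty (𝓝 (1 * 1)) :=
    tendsto_E4_atImInfty.mul tendsto_E4_atImInfty
  have hzero : (fun τ : ℍ => E₄ τ * E₄ τ) = fun _ => 0 := by
    funext τ
    have := congrArg (fun F : ModularForm 𝒮ℒ 8 => F τ) h
    simpa [E4sq_apply] using this
  rw [hzero] at hne
  have := tendsto_nhds_unique hne tendsto_const_nhds
  norm_num at this

/-- **Ramanujan**: `D E₆ = (E₂ E₆ - E₄²) / 2`, in Serre-derivative form. -/
theorem serreForm_E6 (τ : ℍ) : serreForm E₆ τ = -(1 / 2 : ℂ) * E₄ τ ^ 2 := by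
  obtain ⟨c, hc⟩ : ∃ c : ℂ, c • E4sq = (serreForm E₆ : ModularForm 𝒮ℒ 8) :=
    (finrank_eq_one_iff_of_nonzero' _ E4sq_ne_zero).mp
      (Module.rank_eq_one_iff_finrank_eq_one.mp levelOne_weight_eight_rank_one) _
  have hfun : ∀ τ : ℍ, serreForm E₆ τ = c * (E₄ τ * E₄ τ) := fun τ => by
    have := congrArg (fun F : ModularForm 𝒮ℒ 8 => F τ) hc
    simpa [E4sq_apply] using this.symm
  have h1 : Tendsto (fun τ : ℍ => serreForm E₆ τ) atImInfty (𝓝 (c * (1 * 1))) := by
    simp only [hfun]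
    exact (tendsto_E4_atImInfty.mul tendsto_E4_atImInfty).const_mul c
  have h2 := tendsto_serreForm E₆ tendsto_E6_atImInfty
  have h3 := tendsto_nhds_unique h1 h2
  rw [hfun τ, ← mul_one c, ← mul_one (1 : ℂ), h3]
  push_cast
  ring


theorem D_E4 (τ : ℍ) : D E₄ τ = (E2 τ * E₄ τ - E₆ τ) / 3 := by
  have h := serreForm_E4 τ
  rw [serreForm_apply] at h
  push_cast at h
  linear_combination h

theorem D_E6 (τ : ℍ) : D E₆ τ = (E2 τ * E₆ τ - E₄ τ ^ 2) / 2 := by
  have h := serreForm_E6 τ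
  rw [serreForm_apply] at h
  push_cast at h
  linear_combination h

/-- `D Δ = E₂ Δ`. -/
theorem D_discriminant (τ : ℍ) :
    D ModularForm.discriminant τ = E2 τ * ModularForm.discriminant τ := by
  have hτ : 0 < (τ : ℂ).im := τ.im_pos
  have hη : DifferentiableAt ℂ ModularForm.eta (τ : ℂ) := differentiableAt_eta_of_mem_upperHalfPlaneSet hτ
  have hne : ModularForm.eta (τ : ℂ) ≠ 0 := eta_ne_zero hτ
  have hlog := logDeriv_eta_eq_E2 τ
  rw [logDeriv_apply, div_eq_iff hne] at hlog
  have h1 : HasDerivAt (fun z : ℂ => ModularForm.eta z ^ 24)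
      (24 * ModularForm.eta (τ : ℂ) ^ 23 * deriv ModularForm.eta (τ : ℂ)) (τ : ℂ) := by
    simpa using hη.hasDerivAt.fun_pow 24
  have h2 : (ModularForm.discriminant ∘ ofComplex) =ᶠ[𝓝 (τ : ℂ)] fun z : ℂ => ModularForm.eta z ^ 24 := by
    filter_upwards [isOpen_upperHalfPlaneSet.mem_nhds hτ] with w hw
    simp [ModularForm.discriminant, ofComplex_apply_of_im_pos hw]
  have h3 := (h1.congr_of_eventuallyEq h2).deriv
  simp only [normalizedDerivOfComplex]
  rw [h3, hlog]
  have h2pi : (2 * π * I : ℂ) ≠ 0 := two_pi_I_ne_zero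
  have hΔ : ModularForm.discriminant τ = ModularForm.eta (τ : ℂ) ^ 24 := rfl
  rw [hΔ]
  field_simp
  ring


/-- The weight `14` identity: `Δ · D j = - E₄² E₆`. -/
theorem D_jInv_mul_discriminant (τ : ℍ) :
    D jInv τ * ModularForm.discriminant τ = -(E₄ τ ^ 2 * E₆ τ) := by
  have hj : MDiff jInv := mdifferentiable_jInv
  have hΔ : MDiff (ModularForm.discriminant : ℍ → ℂ) :=
    ModularFormClass.holo CuspForm.discriminant
  have hE : MDiff (E₄ : ℍ → ℂ) := ModularFormClass.holo E₄
  have hprod : jInv * (ModularForm.discriminant : ℍ → ℂ) = (E₄ : ℍ → ℂ) ^ 3 := by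
    funext z
    simp only [Pi.mul_apply, Pi.pow_apply, jInv]
    exact div_mul_cancel₀ _ (discriminant_ne_zero z)
  have h1 := congrFun (normalizedDerivOfComplex_mul jInv _ hj hΔ) τ
  have h2 := congrFun (normalizedDerivOfComplex_pow (E₄ : ℍ → ℂ) 3 hE) τ
  rw [hprod] at h1
  rw [h1] at h2
  simp only [Pi.add_apply, Pi.mul_apply, Pi.pow_apply, Pi.natCast_apply] at h2
  rw [D_discriminant, D_E4] at h2
  have hjτ : jInv τ * ModularForm.discriminant τ = E₄ τ ^ 3 := congrFun hprod τ
  push_cast at h2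
  linear_combination h2 - E2 τ * hjτ

theorem D_jInv (τ : ℍ) :
    D jInv τ = -(E₄ τ ^ 2 * E₆ τ) / ModularForm.discriminant τ := by
  rw [eq_div_iff (discriminant_ne_zero τ)]
  exact D_jInv_mul_discriminant τ

end Fermat.Agent.LevelOne_helper29
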