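import Mathlib.Analysis.Analytic.Order
import Fermat.Agent.LevelOne_helper29.Ramanujan

/-!
# Exact vanishing orders of `E₄`, `E₆` and `j - c`

Consequences of Ramanujan's identities `D E₄ = (E₂E₄ - E₆)/3`, `D E₆ = (E₂E₆ - E₄²)/2` and of
`Δ · D j = - E₄² E₆`: all zeros of `E₄` and `E₆` are simple, `j` has a triple zero at the zeros
of `E₄`, `j - 1728` has a double zero at the zeros of `E₆`, and `j - j(τ₀)` has a simple zero at
every other point.
-/

set_option autoImplicit false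

open UpperHalfPlane hiding I
open ModularForm Filter Topology Complex Real EisensteinSeries
open scoped MatrixGroups ModularForm Manifold
open Derivative

namespace Fermat.Agent.LevelOne_helper29

/-- `1728 Δ = E₄³ - E₆²`, pointwise. -/
theorem E4_cube_sub_E6_sq (τ : ℍ) :
    E₄ τ ^ 3 - E₆ τ ^ 2 = 1728 * ModularForm.discriminant τ := by
  rw [discriminant_eq_E₄_cube_sub_E₆_sq τ]
  ring

theorem E6_ne_zero_of_E4_eq_zero {τ : ℍ} (h : E₄ τ = 0) : E₆ τ ≠ 0 := by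
  intro h6
  have := E4_cube_sub_E6_sq τ
  rw [h, h6] at this
  have hΔ := discriminant_ne_zero τ
  apply hΔ
  have h2 : (1728 : ℂ) * ModularForm.discriminant τ = 0 := by rw [← this]; ring
  exact (mul_eq_zero.mp h2).resolve_left (by norm_num)

theorem E4_ne_zero_of_E6_eq_zero {τ : ℍ} (h : E₆ τ = 0) : E₄ τ ≠ 0 :=
  fun h4 => E6_ne_zero_of_E4_eq_zero h4 h

theorem jInv_sub_1728 (τ : ℍ) :
    jInv τ - 1728 = E₆ τ ^ 2 / ModularForm.discriminant τ := by
  have hΔ := discriminant_ne_zero τ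
  rw [jInv, eq_div_iff hΔ, sub_mul, div_mul_cancel₀ _ hΔ]
  linear_combination E4_cube_sub_E6_sq τ

/-- `jInv τ = 0 ↔ E₄ τ = 0`. -/
theorem jInv_eq_zero_iff (τ : ℍ) : jInv τ = 0 ↔ E₄ τ = 0 := by
  rw [jInv, div_eq_zero_iff]
  constructor
  · rintro (h | h)
    · exact pow_eq_zero_iff (n := 3) (by norm_num) |>.mp h
    · exact absurd h (discriminant_ne_zero τ)
  · intro h
    left
    rw [h]
    norm_num

/-- `jInv τ = 1728 ↔ E₆ τ = 0`. -/
theorem jInv_eq_1728_iff (τ : ℍ) : jInv τ = 1728 ↔ E₆ τ = 0 := by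
  rw [← sub_eq_zero, jInv_sub_1728, div_eq_zero_iff]
  constructor
  · rintro (h | h)
    · exact pow_eq_zero_iff (n := 2) (by norm_num) |>.mp h
    · exact absurd h (discriminant_ne_zero τ)
  · intro h
    left
    rw [h]
    norm_num

/-! ### Derivatives in the complex variable -/

theorem analyticAt_comp_ofComplex {f : ℍ → ℂ} (hf : MDiff f) (τ : ℍ) :
    AnalyticAt ℂ (f ∘ ofComplex) (τ : ℂ) :=
  (UpperHalfPlane.mdifferentiable_iff.mp hf).analyticAt
    (isOpen_upperHalfPlaneSet.mem_nhds τ.im_pos)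

theorem deriv_comp_ofComplex (f : ℍ → ℂ) (τ : ℍ) :
    deriv (f ∘ ofComplex) (τ : ℂ) = 2 * π * I * D f τ := by
  have h2pi : (2 * π * I : ℂ) ≠ 0 := two_pi_I_ne_zero
  simp only [normalizedDerivOfComplex]
  field_simp


/-! ### Exact orders -/

/-- The order of vanishing at `τ` of a function on `ℍ`, computed in the complex variable. -/
noncomputable def ordAt (f : ℍ → ℂ) (τ : ℍ) : ℕ∞ := analyticOrderAt (f ∘ ofComplex) (τ : ℂ)

theorem ordAt_def (f : ℍ → ℂ) (τ : ℍ) :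
    ordAt f τ = analyticOrderAt (f ∘ ofComplex) (τ : ℂ) := rfl

theorem ordAt_eq_zero_iff {f : ℍ → ℂ} (hf : MDiff f) (τ : ℍ) : ordAt f τ = 0 ↔ f τ ≠ 0 := by
  rw [ordAt, (analyticAt_comp_ofComplex hf τ).analyticOrderAt_eq_zero]
  simp

theorem ordAt_mul {f g : ℍ → ℂ} (hf : MDiff f) (hg : MDiff g) (τ : ℍ) :
    ordAt (f * g) τ = ordAt f τ + ordAt g τ :=
  analyticOrderAt_mul (analyticAt_comp_ofComplex hf τ) (analyticAt_comp_ofComplex hg τ)

theorem ordAt_pow {f : ℍ → ℂ} (hf : MDiff f) (n : ℕ) (τ : ℍ) :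
    ordAt (f ^ n) τ = n • ordAt f τ :=
  analyticOrderAt_pow (analyticAt_comp_ofComplex hf τ) n

/-- If `f τ = 0` and `D f τ ≠ 0` then `f` has a simple zero at `τ`. -/
theorem ordAt_eq_one_of_D_ne_zero {f : ℍ → ℂ} (hf : MDiff f) {τ : ℍ} (h0 : f τ = 0)
    (hD : D f τ ≠ 0) : ordAt f τ = 1 := by
  refine (analyticAt_comp_ofComplex hf τ).analyticOrderAt_eq_one_of_zero_deriv_ne_zero
    (by simpa using h0) ?_
  rw [deriv_comp_ofComplex]
  exact mul_ne_zero two_pi_I_ne_zero hD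

/-- If `D f τ ≠ 0` then `f - f τ` has a simple zero at `τ`. -/
theorem ordAt_sub_const_eq_one_of_D_ne_zero {f : ℍ → ℂ} (hf : MDiff f) {τ : ℍ}
    (hD : D f τ ≠ 0) : ordAt (fun z => f z - f τ) τ = 1 := by
  have h := (analyticAt_comp_ofComplex hf τ).analyticOrderAt_sub_eq_one_of_deriv_ne_zero
    (by rw [deriv_comp_ofComplex]; exact mul_ne_zero two_pi_I_ne_zero hD)
  simpa [ordAt, Function.comp_def] using h

/-- Zeros of `E₄` are simple. -/
theorem ordAt_E4 {τ : ℍ} (h : E₄ τ = 0) : ordAt E₄ τ = 1 := by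
  refine ordAt_eq_one_of_D_ne_zero (ModularFormClass.holo E₄) h ?_
  rw [D_E4, h, mul_zero, zero_sub]
  exact div_ne_zero (neg_ne_zero.mpr (E6_ne_zero_of_E4_eq_zero h)) (by norm_num)

/-- Zeros of `E₆` are simple. -/
theorem ordAt_E6 {τ : ℍ} (h : E₆ τ = 0) : ordAt E₆ τ = 1 := by
  refine ordAt_eq_one_of_D_ne_zero (ModularFormClass.holo E₆) h ?_
  rw [D_E6, h, mul_zero, zero_sub]
  exact div_ne_zero (neg_ne_zero.mpr (pow_ne_zero 2 (E4_ne_zero_of_E6_eq_zero h))) (by norm_num)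

theorem mdifferentiable_inv_discriminant :
    MDiff (fun τ : ℍ => (ModularForm.discriminant τ)⁻¹) := by
  have h2 : MDiff (fun τ : ℍ => ModularForm.discriminant τ) :=
    ModularFormClass.holo CuspForm.discriminant
  intro τ
  exact (h2 τ).inv (discriminant_ne_zero τ)

/-- `j` has a triple zero at every zero of `E₄`. -/
theorem ordAt_jInv_of_E4_eq_zero {τ : ℍ} (h : E₄ τ = 0) : ordAt jInv τ = 3 := by
  have hE : MDiff (E₄ : ℍ → ℂ) := ModularFormClass.holo E₄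
  have hfun : jInv = (E₄ : ℍ → ℂ) ^ 3 * fun τ : ℍ => (ModularForm.discriminant τ)⁻¹ := by
    funext z
    simp [jInv, div_eq_mul_inv]
  rw [hfun, ordAt_mul (hE.pow 3) mdifferentiable_inv_discriminant, ordAt_pow hE, ordAt_E4 h,
    (ordAt_eq_zero_iff mdifferentiable_inv_discriminant τ).mpr
      (inv_ne_zero (discriminant_ne_zero τ))]
  rfl

/-- `j - 1728` has a double zero at every zero of `E₆`. -/
theorem ordAt_jInv_sub_of_E6_eq_zero {τ : ℍ} (h : E₆ τ = 0) :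
    ordAt (fun z => jInv z - 1728) τ = 2 := by
  have hE : MDiff (E₆ : ℍ → ℂ) := ModularFormClass.holo E₆
  have hfun : (fun z => jInv z - 1728) =
      (E₆ : ℍ → ℂ) ^ 2 * fun τ : ℍ => (ModularForm.discriminant τ)⁻¹ := by
    funext z
    simp [jInv_sub_1728, div_eq_mul_inv]
  rw [hfun, ordAt_mul (hE.pow 2) mdifferentiable_inv_discriminant, ordAt_pow hE, ordAt_E6 h,
    (ordAt_eq_zero_iff mdifferentiable_inv_discriminant τ).mpr
      (inv_ne_zero (discriminant_ne_zero τ))]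
  rfl

/-- Away from the zeros of `E₄` and `E₆`, the function `j - j(τ)` has a simple zero at `τ`. -/
theorem ordAt_jInv_sub_of_ne_zero {τ : ℍ} (h4 : E₄ τ ≠ 0) (h6 : E₆ τ ≠ 0) :
    ordAt (fun z => jInv z - jInv τ) τ = 1 := by
  refine ordAt_sub_const_eq_one_of_D_ne_zero mdifferentiable_jInv ?_
  rw [D_jInv]
  exact div_ne_zero (neg_ne_zero.mpr (mul_ne_zero (pow_ne_zero 2 h4) h6))
    (discriminant_ne_zero τ)

/-- `D j` vanishes exactly at the zeros of `E₄` and `E₆`. -/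
theorem D_jInv_eq_zero_iff (τ : ℍ) : D jInv τ = 0 ↔ E₄ τ = 0 ∨ E₆ τ = 0 := by
  rw [D_jInv, div_eq_zero_iff, neg_eq_zero, mul_eq_zero]
  constructor
  · rintro ((h | h) | h)
    · exact Or.inl (pow_eq_zero_iff (n := 2) (by norm_num) |>.mp h)
    · exact Or.inr h
    · exact absurd h (discriminant_ne_zero τ)
  · rintro (h | h)
    · left; left; rw [h]; norm_num
    · left; right; exact h


/-! ### The elliptic points -/

open ModularGroup

theorem E_smul {k : ℕ} (hk : 3 ≤ k) (γ : SL(2, ℤ)) (τ : ℍ) :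
    E hk (γ • τ) = denom γ τ ^ (k : ℤ) * E hk τ := by
  have h : ((γ : GL (Fin 2) ℝ)) ∈ (𝒮ℒ : Subgroup (GL (Fin 2) ℝ)) := ⟨γ, rfl⟩
  exact SlashInvariantForm.slash_action_eqn'' (E hk) h τ

/-- `E₆` vanishes at `i`. -/
theorem E6_I : E₆ UpperHalfPlane.I = 0 := by
  have hS : S • UpperHalfPlane.I = UpperHalfPlane.I := stabilizer_I.mpr (by simp)
  have h := E_smul (k := 6) (by norm_num) S UpperHalfPlane.I
  rw [hS, ModularGroup.denom_S] at h
  have hI : ((UpperHalfPlane.I : ℍ) : ℂ) ^ ((6 : ℕ) : ℤ) = -1 := by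
    rw [zpow_natCast, UpperHalfPlane.coe_I]
    calc (I : ℂ) ^ 6 = (I ^ 2) ^ 3 := by ring
      _ = -1 := by rw [I_sq]; norm_num
  rw [hI] at h
  have h2 : (2 : ℂ) * E₆ UpperHalfPlane.I = 0 := by linear_combination h
  exact (mul_eq_zero.mp h2).resolve_left (by norm_num)

theorem rho_aux (z : ℂ) (hz : z ^ 2 = -z - 1) : (z + 1) ^ 4 = z ^ 2 ∧ z ^ 2 ≠ 1 := by
  refine ⟨by linear_combination (z ^ 2 + 3 * z + 1) * hz, fun h => ?_⟩
  have h7 : z = -2 := by linear_combination hz - h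
  rw [h7] at h
  norm_num at h

/-- `E₄` vanishes at `ρ`. -/
theorem E4_rho : E₄ ρ = 0 := by
  have hST : (S * T) • ρ = ρ := stabilizer_ρ.mpr (by simp)
  have h := E_smul (k := 4) (by norm_num) (S * T) ρ
  rw [hST] at h
  have e10 : (S * T : SL(2, ℤ)) 1 0 = 1 := by decide
  have e11 : (S * T : SL(2, ℤ)) 1 1 = 1 := by decide
  have hden : denom (S * T : SL(2, ℤ)) ρ = (ρ : ℂ) + 1 := by
    rw [denom_apply]
    change ((((S * T : SL(2, ℤ)) 1 0 : ℤ) : ℝ) : ℂ) * (ρ : ℂ) +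
      ((((S * T : SL(2, ℤ)) 1 1 : ℤ) : ℝ) : ℂ) = (ρ : ℂ) + 1
    rw [e10, e11]
    simp
  obtain ⟨h4, hne⟩ := rho_aux (ρ : ℂ) ρ_sq
  rw [hden, zpow_natCast, h4] at h
  have h5 : ((ρ : ℂ) ^ 2 - 1) * E₄ ρ = 0 := by linear_combination -h
  exact (mul_eq_zero.mp h5).resolve_left (sub_ne_zero.mpr hne)


/-- The statement that `j` separates `SL(2, ℤ)`-orbits. -/
def JInjective : Prop := ∀ τ τ' : ℍ, jInv τ = jInv τ' → ∃ γ : SL(2, ℤ), τ' = γ • τ

theorem jInv_rho : jInv ρ = 0 := (jInv_eq_zero_iff ρ).mpr E4_rho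

theorem jInv_I : jInv UpperHalfPlane.I = 1728 := (jInv_eq_1728_iff _).mpr E6_I

/-- Given injectivity of `j` modulo `SL(2, ℤ)`, the zeros of `E₄` are the orbit of `ρ`. -/
theorem E4_eq_zero_iff_of_injective (hinj : JInjective) (τ : ℍ) :
    E₄ τ = 0 ↔ ∃ γ : SL(2, ℤ), τ = γ • ρ := by
  constructor
  · intro h
    exact hinj ρ τ (by rw [jInv_rho, (jInv_eq_zero_iff τ).mpr h])
  · rintro ⟨γ, rfl⟩
    rw [E_smul, E4_rho, mul_zero]

/-- Given injectivity of `j` modulo `SL(2, ℤ)`, the zeros of `E₆` are the orbit of `i`. -/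
theorem E6_eq_zero_iff_of_injective (hinj : JInjective) (τ : ℍ) :
    E₆ τ = 0 ↔ ∃ γ : SL(2, ℤ), τ = γ • UpperHalfPlane.I := by
  constructor
  · intro h
    exact hinj UpperHalfPlane.I τ (by rw [jInv_I, (jInv_eq_1728_iff τ).mpr h])
  · rintro ⟨γ, rfl⟩
    rw [E_smul, E6_I, mul_zero]

end Fermat.Agent.LevelOne_helper29
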